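/-
S15lib / ORD / Top / CanonTop  (helper6)  — Project E, block ORD, part (O3)

Every canonical normal form of a class at top depth is itself at top depth (otherwise it would be
depth-optimal by `canon_stuck` + `NForm.not_deeper_of_stuck`, contradicting the top form), and the
extraction `f = 1 + π g`, `g ∈ O`, `|π|^(ℓ-1) ≤ |ℓ|^ℓ` in terms of the valuation of `A`.
-/
import Mathlib
import Fermat.Agent.S15lib.ORD.Canon

set_option autoImplicit false
set_option linter.unusedSectionVars false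

noncomputable section

namespace Fermat.Agent.S15lib.ORD.Top

open AlgebraicCurve Fermat.Agent.LSb Fermat.Agent.S18lib Fermat.Agent.S19lib.C
open Fermat.Agent.S19lib.Geom Fermat.Agent.S19lib Fermat.Agent.S15lib.ORD

variable {L : Type*} [Field L] {A : ValuationSubring L}
variable {F : Type*} [Field F] [Algebra L F]
variable {Fk : Type*} [Field Fk] [Algebra (IsLocalRing.ResidueField A) Fk]
variable [HasPrincipalDivisors L F] [HasPrincipalDivisors (IsLocalRing.ResidueField A) Fk]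

local notation "k" => IsLocalRing.ResidueField A

variable {G : Type*} [Group G] {D : RedDatum A F Fk} {S : SymData D G} {g : ℕ}

/-- **the canonical form of a class at top depth is at top depth** -/
theorem canon_depth_le_of_isTop {g' : ℕ} (hF : IsCurveOfGenus L F g')
    (hFk : IsCurveOfGenus k Fk g') {ℓ : ℕ} (hℓ : ℓ.Prime) [CharP Fk ℓ]
    (hperf : ∀ a : k, ∃ b : k, b ^ ℓ = a) (a : Fam D S g)
    (hlift : ∀ Q : Place k Fk, ∃ P : Place L F, D.r P = Q)
    {u : Fin g → L} (hx : IsTop D ℓ (a.Θ u)) (n : NForm D ℓ (a.Θ u)) (hnE : n.E = canonE a u)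
    {P₀ : Place L F} (hP₀ : ∀ i, D.r P₀ ≠ a.Qb i) (hev : ev P₀ n.f = 1) :
    n.depth ^ (ℓ - 1) ≤ D.O.valuation (ℓ : F) ^ ℓ := by
  classical
  have := hFk.infinite_places
  have hℓ1' : ℓ - 1 ≠ 0 := by have := hℓ.two_le; omega
  by_cases hf1 : n.f - 1 = 0
  · rw [NForm.depth, hf1, map_zero, zero_pow hℓ1']
    exact zero_le
  · by_contra htop
    obtain ⟨n', hn'⟩ := hx
    obtain ⟨c, hc, w, hw⟩ := D.exists_const_mul_isUnit (n.f - 1) hf1
    have hcF : algebraMap L F c ≠ 0 := (map_ne_zero _).2 hc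
    have hfg : n.f = 1 + algebraMap L F c⁻¹ * ((w : D.O) : F) := by
      rw [← hw, map_inv₀, inv_mul_cancel_left₀ hcF]; ring
    have hggred : D.redF ((w : D.O) : F) ≠ 0 := D.redF_ne_zero_iff.2 ⟨w, rfl⟩
    have hdepth : n.depth = D.O.valuation (algebraMap L F c⁻¹) := by
      have h1 : n.f - 1 = algebraMap L F c⁻¹ * ((w : D.O) : F) := by rw [hfg]; ring
      rw [NForm.depth, h1, map_mul, D.O.valuation_unit w, mul_one]
    have hπ0 : c⁻¹ ≠ 0 := inv_ne_zero hc
    have hπ1 : A.valuation c⁻¹ < 1 := by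
      rw [← val_algebraMap_lt_one_iff D, ← hdepth]
      exact n.val_lt
    -- `n` is optimal
    have hopt : n.depth ≤ n'.depth := by
      by_contra hlt
      rw [not_le] at hlt
      obtain ⟨Q₁, hQ₁⟩ := Infinite.exists_notMem_finset
        (Finset.univ.image a.Qb ∪ (n'.E : Divisor L F).support.image D.r)
      obtain ⟨P₁, hP₁⟩ := hlift Q₁
      have htop' := htop
      rw [not_le, hdepth] at htop'
      refine NForm.not_deeper_of_stuck hF hℓ hperf n n' (P₀ := P₁) ?_ hπ0 hπ1 htop'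
        (w : D.O).2 hfg (canon_stuck hF hℓ a n hnE hP₀ hev hπ0 hggred hfg) ?_
      · intro P hP
        constructor
        · rw [hnE]
          refine canonE_apply_eq_zero a u fun i h => ?_
          exact hQ₁ (Finset.mem_union_left _
            (Finset.mem_image.2 ⟨i, Finset.mem_univ _, by rw [← h, hP, hP₁]⟩))
        · by_contra hne
          exact hQ₁ (Finset.mem_union_right _
            (Finset.mem_image.2 ⟨P, Finsupp.mem_support_iff.2 hne, by rw [hP, hP₁]⟩))
      · rw [← hdepth]; exact hlt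
    exact htop ((pow_le_pow_left₀ zero_le hopt _).trans hn')

/-- a normal form with `f = 1` is a normal form of the zero class -/
theorem eq_zero_of_f_eq_one {ℓ : ℕ} (hℓ0 : ℓ ≠ 0) {x : Pic0 L F} (n : NForm D ℓ x)
    (hf : n.f = 1) : x = 0 := by
  have h1 : ℓ • (n.E : Divisor L F) = 0 := by rw [← n.div_f, hf, divOf_one]
  have h2 : (n.E : Divisor L F) = 0 := by
    ext P
    have h3 := congrArg (fun E : Divisor L F => E P) h1
    simp only [Finsupp.smul_apply, Finsupp.zero_apply, nsmul_eq_mul] at h3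
    rcases mul_eq_zero.1 h3 with h4 | h4
    · exact absurd (by exact_mod_cast h4) hℓ0
    · exact h4
  have h3 : n.E = 0 := Subtype.ext h2
  rw [← n.mk_E, h3]
  rfl

/-- extraction: a normal form at top depth with `f ≠ 1` is `1 + π g`, `g ∈ O`, `π ∈ 𝔪_A`,
`|π|^(ℓ-1) ≤ |ℓ|^ℓ` -/
theorem exists_eq_one_add_of_top {ℓ : ℕ} {x : Pic0 L F} (n : NForm D ℓ x) (hf1 : n.f ≠ 1)
    (htop : n.depth ^ (ℓ - 1) ≤ D.O.valuation (ℓ : F) ^ ℓ) :
    ∃ (π : L) (gg : F), π ≠ 0 ∧ A.valuation π < 1 ∧ gg ∈ D.O ∧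
      n.f = 1 + algebraMap L F π * gg ∧
      A.valuation π ^ (ℓ - 1) ≤ A.valuation (ℓ : L) ^ ℓ := by
  have hf1' : n.f - 1 ≠ 0 := sub_ne_zero.2 hf1
  obtain ⟨c, hc, w, hw⟩ := D.exists_const_mul_isUnit (n.f - 1) hf1'
  have hcF : algebraMap L F c ≠ 0 := (map_ne_zero _).2 hc
  have hfg : n.f = 1 + algebraMap L F c⁻¹ * ((w : D.O) : F) := by
    rw [← hw, map_inv₀, inv_mul_cancel_left₀ hcF]; ring
  have hdepth : n.depth = D.O.valuation (algebraMap L F c⁻¹) := by
    have h1 : n.f - 1 = algebraMap L F c⁻¹ * ((w : D.O) : F) := by rw [hfg]; ring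
    rw [NForm.depth, h1, map_mul, D.O.valuation_unit w, mul_one]
  have hπ1 : A.valuation c⁻¹ < 1 := by
    rw [← val_algebraMap_lt_one_iff D, ← hdepth]
    exact n.val_lt
  refine ⟨c⁻¹, ((w : D.O) : F), inv_ne_zero hc, hπ1, (w : D.O).2, hfg, ?_⟩
  rw [hdepth, ← map_pow, ← map_pow, ← map_natCast (algebraMap L F) ℓ, ← map_pow, ← map_pow,
    val_algebraMap_le_iff] at htop
  rw [← map_pow, ← map_pow]
  exact htop

end Fermat.Agent.S15lib.ORD.Top
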