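/-
S15lib / ORD / Top / ValU  (helper6)  — Project E, block ORD, part (O3), pure valuation algebra

`v : Valuation K Γ₀`.  The groups `1 + B(ρ)` (`ρ < 1`) and the final contradiction:
an `ℓ`-th root of unity `ε` with `v (ε - 1) ≤ ρ`, `ρ ^ ((ℓ - 1) ℓ) ≤ v ℓ ^ (ℓ² + ℓ)` is `1`.
-/
import Mathlib
import Fermat.Agent.S44lib.F.Cyclo

set_option autoImplicit false

namespace Fermat.Agent.S15lib.ORD.Top

variable {K : Type*} [Field K] {Γ₀ : Type*} [LinearOrderedCommGroupWithZero Γ₀]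
  (v : Valuation K Γ₀)

theorem val_eq_one_of_sub_one_lt {z : K} (h : v (z - 1) < 1) : v z = 1 := by
  have := Valuation.map_one_add_of_lt v h
  rwa [add_sub_cancel] at this

theorem val_le_one_of_sub_one_le {z : K} {ρ : Γ₀} (h : v (z - 1) ≤ ρ) (hρ : ρ ≤ 1) : v z ≤ 1 := by
  have h1 : z = (z - 1) + 1 := by ring
  rw [h1]
  exact (v.map_add _ _).trans (max_le (h.trans hρ) (by rw [map_one]))

/-- `1 + B(ρ)` is closed under products -/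
theorem val_mul_sub_one_le {z w : K} {ρ : Γ₀} (hρ : ρ ≤ 1) (hz : v (z - 1) ≤ ρ)
    (hw : v (w - 1) ≤ ρ) : v (z * w - 1) ≤ ρ := by
  have h1 : z * w - 1 = (z - 1) * w + (w - 1) := by ring
  rw [h1]
  refine (v.map_add _ _).trans (max_le ?_ hw)
  rw [map_mul]
  calc v (z - 1) * v w ≤ ρ * 1 := mul_le_mul' hz (val_le_one_of_sub_one_le v hw hρ)
    _ = ρ := mul_one _

/-- `1 + B(ρ)` is closed under inverses (`ρ < 1`) -/
theorem val_inv_sub_one_le {z : K} {ρ : Γ₀} (hρ : ρ < 1) (hz : v (z - 1) ≤ ρ) :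
    v (z⁻¹ - 1) ≤ ρ := by
  have hz1 : v z = 1 := val_eq_one_of_sub_one_lt v (hz.trans_lt hρ)
  have hz0 : z ≠ 0 := by
    intro h0
    rw [h0, map_zero] at hz1
    exact zero_ne_one hz1
  have h1 : z⁻¹ - 1 = -(z - 1) * z⁻¹ := by
    field_simp
    ring
  rw [h1, map_mul, Valuation.map_neg, map_inv₀, hz1, inv_one, mul_one]
  exact hz

theorem val_div_sub_one_le {z w : K} {ρ : Γ₀} (hρ : ρ < 1) (hz : v (z - 1) ≤ ρ)
    (hw : v (w - 1) ≤ ρ) : v (z / w - 1) ≤ ρ := by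
  rw [div_eq_mul_inv]
  exact val_mul_sub_one_le v hρ.le hz (val_inv_sub_one_le v hρ hw)

theorem val_prod_sub_one_le {ι : Type*} (s : Finset ι) (z : ι → K) {ρ : Γ₀} (hρ : ρ ≤ 1)
    (hz : ∀ i ∈ s, v (z i - 1) ≤ ρ) : v (∏ i ∈ s, z i - 1) ≤ ρ := by
  classical
  induction s using Finset.induction_on with
  | empty => simp
  | insert a s ha ih =>
    rw [Finset.prod_insert ha]
    exact val_mul_sub_one_le v hρ (hz a (Finset.mem_insert_self a s))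
      (ih fun i hi => hz i (Finset.mem_insert_of_mem hi))

/-- the ratio `(1 + c * a) / (1 + c * b)`-type estimate: if `w = z + d`, `v (z - 1) < 1` and
`v d ≤ ρ` then `v (w / z - 1) ≤ ρ` -/
theorem val_div_sub_one_le_of_add {z w d : K} {ρ : Γ₀} (hz : v (z - 1) < 1) (hw : w = z + d)
    (hd : v d ≤ ρ) : v (w / z - 1) ≤ ρ := by
  have hz1 : v z = 1 := val_eq_one_of_sub_one_lt v hz
  have hz0 : z ≠ 0 := by
    intro h0
    rw [h0, map_zero] at hz1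
    exact zero_ne_one hz1
  have h1 : w / z - 1 = d / z := by
    rw [hw]
    field_simp
    ring
  rw [h1, map_div₀, hz1, div_one]
  exact hd

/-- the exponent bookkeeping of the final estimate -/
theorem mul_pow_le_of_top {p q w lam : Γ₀} {ℓ : ℕ} (hp : p ^ (ℓ - 1) ≤ lam ^ ℓ)
    (hq : q ^ (ℓ - 1) ≤ lam ^ ℓ) (hw : w ^ ℓ ≤ q) :
    (p * w) ^ ((ℓ - 1) * ℓ) ≤ lam ^ (ℓ * ℓ + ℓ) := by
  have h1 : (p * w) ^ ((ℓ - 1) * ℓ) = (p ^ (ℓ - 1)) ^ ℓ * (w ^ ℓ) ^ (ℓ - 1) := by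
    rw [mul_pow, pow_mul, ← pow_mul w, mul_comm ℓ (ℓ - 1)]
  rw [h1, pow_add, pow_mul]
  exact mul_le_mul' (pow_le_pow_left₀ zero_le hp _)
    ((pow_le_pow_left₀ zero_le hw _).trans hq)

/-- **the final contradiction**: an `ℓ`-th root of unity too close to `1` is `1` -/
theorem eq_one_of_pow_eq_one_of_close {ℓ : ℕ} (hℓ : ℓ.Prime) (hℓv : v (ℓ : K) < 1)
    (hℓ0 : (ℓ : K) ≠ 0) {ε : K} (hε : ε ^ ℓ = 1) {ρ : Γ₀} (hclose : v (ε - 1) ≤ ρ)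
    (hρ : ρ ^ ((ℓ - 1) * ℓ) ≤ v (ℓ : K) ^ (ℓ * ℓ + ℓ)) : ε = 1 := by
  by_contra hne
  have : Fact ℓ.Prime := ⟨hℓ⟩
  have hprim : IsPrimitiveRoot ε ℓ := by
    have h := IsPrimitiveRoot.orderOf ε
    rwa [orderOf_eq_prime hε hne] at h
  have hval := Fermat.Agent.S44lib.F.val_zeta_sub_one_pow v hℓ hprim
  have hpos : 0 < v (ℓ : K) := zero_lt_iff.2 ((Valuation.ne_zero_iff _).2 hℓ0)
  have h1 : v (ℓ : K) ^ ℓ ≤ v (ℓ : K) ^ (ℓ * ℓ + ℓ) := by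
    calc v (ℓ : K) ^ ℓ = (v (ε - 1) ^ (ℓ - 1)) ^ ℓ := by rw [hval]
      _ = v (ε - 1) ^ ((ℓ - 1) * ℓ) := by rw [pow_mul]
      _ ≤ ρ ^ ((ℓ - 1) * ℓ) := pow_le_pow_left₀ zero_le hclose _
      _ ≤ v (ℓ : K) ^ (ℓ * ℓ + ℓ) := hρ
  have h2 : v (ℓ : K) ^ (ℓ * ℓ + ℓ) < v (ℓ : K) ^ ℓ := by
    rw [pow_add]
    have h3 : v (ℓ : K) ^ (ℓ * ℓ) < 1 :=
      pow_lt_one₀ zero_le hℓv (Nat.mul_ne_zero hℓ.ne_zero hℓ.ne_zero)
    have h4 : 0 < v (ℓ : K) ^ ℓ := pow_pos hpos _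
    calc v (ℓ : K) ^ (ℓ * ℓ) * v (ℓ : K) ^ ℓ < 1 * v (ℓ : K) ^ ℓ :=
          mul_lt_mul_of_pos_right h3 h4
      _ = v (ℓ : K) ^ ℓ := one_mul _
  exact absurd h1 (not_le.2 h2)

end Fermat.Agent.S15lib.ORD.Top
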