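/-
S15lib / ORD / Top / Disc  (helper6)  — Project E, block ORD, part (O3), local estimates on a disc

`c : Chart D Qb`, `f = 1 + π g` with `g` disc-regular:

* `val_ev_ratio_sub_one_le` : `f(pt v) / f(P0) ∈ 1 + π v A`;
* `val_coord_pow_le` : if `(Dv v - E, f)` is a normal form of `Θ_b(v)` and `f = 1 + π g`, `g ∈ O`,
  then `|v j| ^ ℓ ≤ |π|` for every coordinate.
-/
import Mathlib
import Fermat.Agent.S15lib.ORD.Canon
import Fermat.Agent.S15lib.ORD.Top.ValU

set_option autoImplicit false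
set_option linter.unusedSectionVars false

noncomputable section

namespace Fermat.Agent.S15lib.ORD.Top

open AlgebraicCurve Fermat.Agent.LSb Fermat.Agent.S18lib Fermat.Agent.S19lib.C
open Fermat.Agent.S19lib.Geom Fermat.Agent.S19lib Fermat.Agent.S15lib.ORD

variable {L : Type*} [Field L] {A : ValuationSubring L}
variable {F : Type*} [Field F] [Algebra L F]
variable {Fk : Type*} [Field Fk] [Algebra (IsLocalRing.ResidueField A) Fk]
variable [HasPrincipalDivisors L F] [HasPrincipalDivisors (IsLocalRing.ResidueField A) Fk]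

local notation "k" => IsLocalRing.ResidueField A

variable {G : Type*} [Group G] {D : RedDatum A F Fk} {S : SymData D G} {g : ℕ}

/-! ### values on a disc -/

/-- `g(pt v) - g(P0) ∈ v A` for a disc-regular function -/
theorem exists_ev_pt_sub {Qb : Place k Fk} (c : Chart D Qb) {gg : F} (hgg : DiscReg D Qb gg)
    {v : L} (hv : A.valuation v < 1) :
    ∃ a ∈ A, ev (c.pt v) gg - ev c.P0 gg = v * a := by
  have hdeg := c.deg_one
  have ht0 : c.t - algebraMap L F (ev c.P0 c.t) ≠ 0 := c.param.sub_ev_ne_zero c.r_P0 (hdeg _)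
  have hdq : DiscReg D Qb (dq c.P0 c.t gg) := hgg.dq c.param hdeg c.r_P0
  have hmul := mul_dq (f := gg) ht0
  rw [c.centred, map_zero, sub_zero] at hmul
  have hP : D.r (c.pt v) = Qb := c.r_pt v
  have h1 : ev (c.pt v) (c.t * dq c.P0 c.t gg)
      = ev (c.pt v) c.t * ev (c.pt v) (dq c.P0 c.t gg) :=
    ev_mul (hdeg _) (c.param.1.2 _ hP) (hdq.2 _ hP)
  have h2 : ev (c.pt v) (gg - algebraMap L F (ev c.P0 gg)) = ev (c.pt v) gg - ev c.P0 gg := by
    rw [ev_sub (hdeg _) (hgg.2 _ hP) (regAt_const _), ev_const]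
  refine ⟨ev (c.pt v) (dq c.P0 c.t gg), hdq.ev_mem hP (hdeg _), ?_⟩
  rw [← h2, ← hmul, h1, c.ev_pt hv]

/-- the value of `1 + π g` at a point of the disc -/
theorem ev_one_add_mul {Qb : Place k Fk} {gg f : F} (hgg : DiscReg D Qb gg) {π : L}
    (hf : f = 1 + algebraMap L F π * gg) {P : Place L F} (hP : D.r P = Qb) (hdeg : P.deg = 1) :
    ev P f = 1 + π * ev P gg := by
  rw [hf, ev_add hdeg regAt_one ((regAt_const _).mul (hgg.2 P hP)), ev_one,
    ev_mul hdeg (regAt_const _) (hgg.2 P hP), ev_const]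

/-- `f(pt v) / f(P0) ∈ 1 + π v A` for `f = 1 + π g`, `g` disc-regular, `π ∈ 𝔪_A` -/
theorem val_ev_ratio_sub_one_le {Qb : Place k Fk} (c : Chart D Qb) {gg f : F}
    (hgg : DiscReg D Qb gg) {π : L} (hπ : A.valuation π < 1)
    (hf : f = 1 + algebraMap L F π * gg) {v : L} (hv : A.valuation v < 1) :
    A.valuation (ev (c.pt v) f / ev c.P0 f - 1) ≤ A.valuation (π * v) := by
  have hdeg := c.deg_one
  obtain ⟨a, ha, hsub⟩ := exists_ev_pt_sub c hgg hv
  have h0 := ev_one_add_mul hgg hf c.r_P0 (hdeg _)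
  have h1 := ev_one_add_mul hgg hf (c.r_pt v) (hdeg _)
  have hbA : ev c.P0 gg ∈ A := hgg.ev_mem c.r_P0 (hdeg _)
  refine val_div_sub_one_le_of_add A.valuation (d := π * v * a) ?_ ?_ ?_
  · rw [h0, add_sub_cancel_left, map_mul]
    calc A.valuation π * A.valuation (ev c.P0 gg) ≤ A.valuation π * 1 :=
          mul_le_mul' le_rfl ((A.valuation_le_one_iff _).2 hbA)
      _ = A.valuation π := mul_one _
      _ < 1 := hπ
  · rw [h1, h0]
    linear_combination π * hsub
  · rw [map_mul]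
    calc A.valuation (π * v) * A.valuation a ≤ A.valuation (π * v) * 1 :=
          mul_le_mul' le_rfl ((A.valuation_le_one_iff _).2 ha)
      _ = A.valuation (π * v) := mul_one _

/-! ### the divisors of a family on one of its discs -/

open Classical in
theorem Dv_apply_of_r_eq (b : Fam D S g) (v : Fin g → L) (j : Fin g) {P : Place L F}
    (hP : D.r P = b.Qb j) :
    b.Dv v P = if (b.ch j).pt (v j) = P then 1 else 0 := by
  classical
  rw [Fam.Dv, Finsupp.finsetSum_apply, Finset.sum_eq_single j]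
  · rw [Finsupp.single_apply]
  · intro i _ hij
    rw [Finsupp.single_apply, if_neg]
    intro h
    apply hij
    apply b.inj
    rw [← (b.ch i).r_pt (v i), h, hP]
  · intro h
    exact absurd (Finset.mem_univ j) h

open Classical in
theorem E_apply_of_r_eq (b : Fam D S g) (j : Fin g) {P : Place L F}
    (hP : D.r P = b.Qb j) :
    b.E P = if (b.ch j).P0 = P then 1 else 0 := by
  rw [← b.Dv_zero, Dv_apply_of_r_eq b 0 j hP, Pi.zero_apply, (b.ch j).pt_zero]

open Classical in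
theorem canonE_apply_of_r_eq (b : Fam D S g) (v : Fin g → L) (j : Fin g) {P : Place L F}
    (hP : D.r P = b.Qb j) :
    (canonE b v : Divisor L F) P
      = (if (b.ch j).pt (v j) = P then 1 else 0) - (if (b.ch j).P0 = P then 1 else 0) := by
  show (b.Dv v - b.E) P = _
  rw [Finsupp.sub_apply, Dv_apply_of_r_eq b v j hP, E_apply_of_r_eq b j hP]

/-! ### the coordinate bound -/

/-- **the coordinate bound**: if `(Dv v - E, f)` is a normal form with `f = 1 + π g`, `g ∈ O`,
then `|v j| ^ ℓ ≤ |π|` -/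
theorem val_coord_pow_le {ℓ : ℕ} (hℓ0 : ℓ ≠ 0) (b : Fam D S g) {v : Fin g → L}
    (hv : v ∈ PolyDisc A (Fin g)) (n : NForm D ℓ (b.Θ v)) (hnE : n.E = canonE b v)
    {π : L} (hπ0 : π ≠ 0) {gg : F} (hgg : gg ∈ D.O)
    (hfg : n.f = 1 + algebraMap L F π * gg) (j : Fin g) :
    A.valuation (v j) ^ ℓ ≤ A.valuation π := by
  classical
  set c := b.ch j with hc
  have hdeg := c.deg_one
  set P := c.pt (v j) with hPdef
  have hP : D.r P = b.Qb j := c.r_pt _
  have hvj : A.valuation (v j) < 1 := hv j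
  have hevP : ev P c.t = v j := c.ev_pt hvj
  have hπF : algebraMap L F π ≠ 0 := (map_ne_zero _).2 hπ0
  -- the two uniformizers
  set s := c.t - algebraMap L F (v j) with hs
  have hs' : s = c.t - algebraMap L F (ev P c.t) := by rw [hevP]
  have hs0 : s ≠ 0 := by rw [hs']; exact c.param.sub_ev_ne_zero hP (hdeg P)
  have ht' : c.t = c.t - algebraMap L F (ev c.P0 c.t) := by
    rw [c.centred, map_zero, sub_zero]
  have ht0 : c.t ≠ 0 := by rw [ht']; exact c.param.sub_ev_ne_zero c.r_P0 (hdeg _)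
  -- orders on the disc
  have hord_s : ∀ P' : Place L F, D.r P' = b.Qb j → P'.ord s = if P = P' then 1 else 0 := by
    intro P' hP'
    rw [hs']
    split_ifs with h
    · subst h; exact c.param.ord_sub_ev hP (hdeg P)
    · exact c.param.ord_sub_ev_of_ne hP hP' (hdeg P) h
  have hord_t : ∀ P' : Place L F, D.r P' = b.Qb j →
      P'.ord c.t = if c.P0 = P' then 1 else 0 := by
    intro P' hP'
    rw [ht']
    split_ifs with h
    · subst h; exact c.param.ord_sub_ev c.r_P0 (hdeg _)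
    · exact c.param.ord_sub_ev_of_ne c.r_P0 hP' (hdeg _) h
  have hord_f : ∀ P' : Place L F, D.r P' = b.Qb j →
      P'.ord n.f = ℓ * ((if P = P' then 1 else 0) - (if c.P0 = P' then 1 else 0)) := by
    intro P' hP'
    rw [n.ord_f, hnE, canonE_apply_of_r_eq b v j hP']
  -- the function `H`
  have hsinvO : s⁻¹ ∈ D.O := by rw [hs']; exact c.param.inv_sub_ev_mem hP (hdeg P)
  have htO : c.t ∈ D.O := c.param.1.1
  set H := n.f * c.t ^ ℓ * s⁻¹ ^ ℓ with hH
  have hftO : n.f * c.t ^ ℓ ∈ D.O := D.O.mul_mem _ _ n.f_mem (D.O.pow_mem htO ℓ)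
  have hHO : H ∈ D.O := D.O.mul_mem _ _ hftO (D.O.pow_mem hsinvO ℓ)
  have hft0 : n.f * c.t ^ ℓ ≠ 0 := mul_ne_zero n.f_ne (pow_ne_zero _ ht0)
  have hsinv0 : s⁻¹ ^ ℓ ≠ 0 := pow_ne_zero _ (inv_ne_zero hs0)
  have hHord : ∀ P' : Place L F, D.r P' = b.Qb j → P'.ord H = 0 := by
    intro P' hP'
    rw [hH, P'.ord_mul hft0 hsinv0, P'.ord_mul n.f_ne (pow_ne_zero _ ht0), Cech.ord_pow,
      Cech.ord_pow, P'.ord_inv, hord_s P' hP', hord_t P' hP', hord_f P' hP']
    split_ifs <;> ring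
  have hHdisc : DiscReg D (b.Qb j) H :=
    ⟨hHO, fun P' hP' => regAt_iff_ord.2 (by rw [hHord P' hP'])⟩
  -- reduction of `H`
  have htred0 : D.redF c.t ≠ 0 := by
    have := c.param.redF_sub_ev_ne_zero c.r_P0 (hdeg _)
    rwa [← ht'] at this
  have hsred : D.redF s = D.redF c.t := by
    rw [hs', c.param.redF_sub_ev hP (hdeg P), c.ev_redF_t, map_zero, sub_zero]
  have hsred0 : D.redF s ≠ 0 := by rw [hsred]; exact htred0
  have hredH : D.redF H = 1 := by
    rw [hH, D.redF_mul hftO (D.O.pow_mem hsinvO ℓ), D.redF_mul n.f_mem (D.O.pow_mem htO ℓ),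
      n.redF_f, one_mul, D.redF_pow htO, D.redF_pow hsinvO, D.redF_inv hsred0, hsred, ← mul_pow,
      mul_inv_cancel₀ htred0, one_pow]
  -- the value of `H` at the centre is a unit
  have hevH_mem : ev c.P0 H ∈ A := hHdisc.ev_mem c.r_P0 (hdeg _)
  have hevH_val : A.valuation (ev c.P0 H) = 1 := by
    have hres : IsLocalRing.residue A ⟨ev c.P0 H, hevH_mem⟩ = 1 := by
      rw [hHdisc.residue_ev c.r_P0 (hdeg _), hredH, ev_one]
    have hu : IsUnit (⟨ev c.P0 H, hevH_mem⟩ : A) := by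
      rw [← IsLocalRing.residue_ne_zero_iff_isUnit, hres]
      exact one_ne_zero
    exact (A.valuation_eq_one_iff _).1 hu
  -- the function `K = g t^ℓ`
  have hK : algebraMap L F π * (gg * c.t ^ ℓ) = s ^ ℓ * H - c.t ^ ℓ := by
    have h1 : s ^ ℓ * H = n.f * c.t ^ ℓ := by
      rw [hH, inv_pow]
      field_simp
    rw [h1, hfg]
    ring
  have hregs : ∀ P' : Place L F, D.r P' = b.Qb j → RegAt P' s := fun P' hP' =>
    (c.param.1.2 P' hP').sub (regAt_const _)
  have hKdisc : DiscReg D (b.Qb j) (gg * c.t ^ ℓ) := by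
    refine ⟨D.O.mul_mem _ _ hgg (D.O.pow_mem htO ℓ), fun P' hP' => ?_⟩
    have h2 : gg * c.t ^ ℓ = algebraMap L F π⁻¹ * (s ^ ℓ * H - c.t ^ ℓ) := by
      rw [← hK, map_inv₀, inv_mul_cancel_left₀ hπF]
    rw [h2]
    exact (regAt_const _).mul ((((hregs P' hP').pow ℓ).mul (hHdisc.2 P' hP')).sub
      ((c.param.1.2 P' hP').pow ℓ))
  have hevK : ev c.P0 (gg * c.t ^ ℓ) ∈ A := hKdisc.ev_mem c.r_P0 (hdeg _)
  have hregP0 := c.param.1.2 c.P0 c.r_P0
  have hevs : ev c.P0 s = -(v j) := by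
    rw [hs, ev_sub (hdeg _) hregP0 (regAt_const _), ev_const, c.centred, zero_sub]
  have hcomp : π * ev c.P0 (gg * c.t ^ ℓ) = (-(v j)) ^ ℓ * ev c.P0 H := by
    have h3 := congrArg (ev c.P0) hK
    rw [ev_mul (hdeg _) (regAt_const _) (hKdisc.2 _ c.r_P0), ev_const,
      ev_sub (hdeg _) (((hregs _ c.r_P0).pow ℓ).mul (hHdisc.2 _ c.r_P0)) (hregP0.pow ℓ),
      ev_mul (hdeg _) ((hregs _ c.r_P0).pow ℓ) (hHdisc.2 _ c.r_P0),
      ev_pow (hdeg _) (hregs _ c.r_P0), ev_pow (hdeg _) hregP0, hevs, c.centred] at h3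
    rw [h3, zero_pow hℓ0, sub_zero]
  have hval := congrArg A.valuation hcomp
  rw [map_mul, map_mul, map_pow, Valuation.map_neg, hevH_val, mul_one] at hval
  rw [← hval]
  calc A.valuation π * A.valuation (ev c.P0 (gg * c.t ^ ℓ)) ≤ A.valuation π * 1 :=
        mul_le_mul' le_rfl ((A.valuation_le_one_iff _).2 hevK)
    _ = A.valuation π := mul_one _

end Fermat.Agent.S15lib.ORD.Top
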